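/-
S58 project, cell [TOP] (helper21), part 2: glue between the elliptic-curve seams and the Tate
module.  Prefix `s58top_`.

* `s58top_IsTate` : the properties of the Tate module and its level maps (body of `s58_TateSeam`);
* `s58top_frob_rel` : (S-FROB) ⟹ `ρ(Frob_ℓ)² - a_ℓ ρ(Frob_ℓ) + ℓ = 0` on `T_λ W`;
* `s58top_baseChange_rel`, `s58top_baseChange_charpoly` : base change along `φ : A → B`;
* `s58top_eval_one` : (S-FIX) ⟹ `χ_{ρ(σ)}(1) = 0` for `σ` in an inertia group at `q ≠ λ`;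
* `s58top_scalar_of_baseChange` : a scalar base change comes from a scalar (injective `φ`);
* `s58top_exists_nonscalar`, `s58top_residual_irreducible` : consequences of the irreducibility of
  `W[p]`.
-/
import Mathlib
import Fermat.Agent.S58.SeamsMod
import Fermat.Agent.S13.Ladder.Torsion

set_option autoImplicit false
set_option linter.style.haveILetI false

open Polynomial IsLocalRing
open scoped WeierstrassCurve.Affine TensorProduct

namespace Fermat.Agent.S58

open Fermat.Agent.S13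

/-- the properties of the Tate module with its level maps (the body of `s58_TateSeam`) -/
structure s58top_IsTate (W : WeierstrassCurve ℤ) (lam : ℕ) [Fact lam.Prime]
    (ρ : GaloisRepAdic ℤ_[lam]) (π : ℕ → ρ.V →+ s58_E W) : Prop where
  tor : ∀ n v, lam ^ n • π n v = 0
  compat : ∀ n v, lam • π (n + 1) v = π n v
  gal : ∀ n (σ : s58_G) v, π n (ρ.ρ σ v) = σ • π n v
  smul : ∀ n (a : ℤ_[lam]) v, π n (a • v) = (PadicInt.toZModPow n a).val • π n v
  surj : ∀ n (P : s58_E W), lam ^ n • P = 0 → ∃ v, π n v = P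
  ker : ∀ n v, π n v = 0 → ∃ w, v = (lam : ℤ_[lam]) ^ n • w
  sep : ∀ v, (∀ n, π n v = 0) → v = 0

theorem s58top_exists_tate (hT : s58_TateSeam) (W : WeierstrassCurve ℤ) (hΔ : W.Δ ≠ 0)
    (lam : ℕ) [Fact lam.Prime] (hlam : lam ≠ 2) :
    ∃ (ρ : GaloisRepAdic ℤ_[lam]) (π : ℕ → ρ.V →+ s58_E W), s58top_IsTate W lam ρ π := by
  obtain ⟨ρ, π, h1, h2, h3, h4, h5, h6, h7⟩ := hT W hΔ lam hlam
  exact ⟨ρ, π, ⟨h1, h2, h3, h4, h5, h6, h7⟩⟩

section Tate

variable {W : WeierstrassCurve ℤ} {lam : ℕ} [Fact lam.Prime] {ρ : GaloisRepAdic ℤ_[lam]}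
  {π : ℕ → ρ.V →+ s58_E W}

theorem s58top_pi_natCast_smul (π : ℕ → ρ.V →+ s58_E W) (n m : ℕ) (v : ρ.V) :
    π n ((m : ℤ_[lam]) • v) = m • π n v := by
  rw [Nat.cast_smul_eq_nsmul, map_nsmul]

theorem s58top_pi_intCast_smul (π : ℕ → ρ.V →+ s58_E W) (n : ℕ) (m : ℤ) (v : ρ.V) :
    π n ((m : ℤ_[lam]) • v) = m • π n v := by
  rw [Int.cast_smul_eq_zsmul, map_zsmul]

/-- **(S-FROB) on the Tate module** -/
theorem s58top_frob_rel (hF : s58_FrobSeam) (hT : s58top_IsTate W lam ρ π) {ℓ : ℕ}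
    (hℓ : ℓ.Prime) (hgood : ¬ (ℓ : ℤ) ∣ W.Δ) (hne : ℓ ≠ lam)
    (A : ValuationSubring s58_Qb) (hA : A.LiesOverPrime ℓ) (σ : s58_G)
    (hσ : A.IsFrobeniusAt σ ℓ) :
    (ρ.ρ σ) ^ 2 - ((W.apOfModel ℓ : ℤ) : ℤ_[lam]) • ρ.ρ σ
      + (ℓ : ℤ_[lam]) • (1 : Module.End ℤ_[lam] ρ.V) = 0 := by
  refine LinearMap.ext fun v => hT.sep _ fun n => ?_
  have hcop : (lam ^ n).Coprime ℓ :=
    Nat.Coprime.pow_left n ((Nat.coprime_primes (Fact.out : lam.Prime) hℓ).mpr (Ne.symm hne))
  have h := hF W ℓ hℓ hgood A hA σ hσ (lam ^ n) (π n v) hcop (hT.tor n v)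
  rw [LinearMap.add_apply, LinearMap.sub_apply, LinearMap.smul_apply, LinearMap.smul_apply,
    pow_two, Module.End.mul_apply, Module.End.one_apply, map_add, map_sub,
    s58top_pi_intCast_smul π, s58top_pi_natCast_smul π, hT.gal, hT.gal, ← natCast_zsmul]
  exact h

end Tate

/-! ### base change along `φ : A → B` -/

section BaseChange

variable {A B : Type} [CommRing A] [IsLocalRing A] [CommRing B] [IsLocalRing B]
  (φ : A →+* B) (hφ : IsLocalHom φ) (ρ : GaloisRepAdic A)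

theorem s58top_baseChange_rel (σ : s58_G) (a b : A)
    (h : (ρ.ρ σ) ^ 2 - a • ρ.ρ σ + b • (1 : Module.End A ρ.V) = 0) :
    ((ρ.baseChangeAlong φ hφ).ρ σ) ^ 2 - φ a • (ρ.baseChangeAlong φ hφ).ρ σ
      + φ b • (1 : Module.End B (ρ.baseChangeAlong φ hφ).V) = 0 := by
  letI : Algebra A B := φ.toAlgebra
  have h1 := congrArg (LinearMap.baseChange B) h
  rw [LinearMap.baseChange_add, LinearMap.baseChange_sub, LinearMap.baseChange_smul,
    LinearMap.baseChange_smul, LinearMap.baseChange_pow, LinearMap.baseChange_one,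
    LinearMap.baseChange_zero] at h1
  have e : ∀ (r : A) (g : Module.End B (B ⊗[A] ρ.V)), r • g = φ r • g := fun r g => by
    rw [← algebraMap_smul B r g]; rfl
  rw [e, e] at h1
  exact h1

theorem s58top_baseChange_charpoly (σ : s58_G) :
    LinearMap.charpoly ((ρ.baseChangeAlong φ hφ).ρ σ) = (LinearMap.charpoly (ρ.ρ σ)).map φ := by
  letI : Algebra A B := φ.toAlgebra
  exact LinearMap.charpoly_baseChange (ρ.ρ σ) B

theorem s58top_baseChange_det (σ : s58_G) :
    LinearMap.det ((ρ.baseChangeAlong φ hφ).ρ σ) = φ (LinearMap.det (ρ.ρ σ)) := by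
  letI : Algebra A B := φ.toAlgebra
  exact LinearMap.det_baseChange (ρ.ρ σ)

theorem s58top_residual_charpoly (σ : s58_G) :
    LinearMap.charpoly (ρ.residual.ρ σ) = (LinearMap.charpoly (ρ.ρ σ)).map (residue A) :=
  LinearMap.charpoly_baseChange (ρ.ρ σ) (ResidueField A)

theorem s58top_residual_det (σ : s58_G) :
    LinearMap.det (ρ.residual.ρ σ) = residue A (LinearMap.det (ρ.ρ σ)) :=
  LinearMap.det_baseChange (ρ.ρ σ)

end BaseChange

/-! ### (S-FIX) on the Tate module -/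

section Fix

variable {W : WeierstrassCurve ℤ} {lam : ℕ} [Fact lam.Prime] {ρ : GaloisRepAdic ℤ_[lam]}
  {π : ℕ → ρ.V →+ s58_E W}

/-- an element of `ℤ_[lam]` killing, modulo `lam ^ (n+1)`, a vector whose image at level `n + 1`
has exact order `lam ^ (n + 1)`, for every `n`, is zero -/
theorem s58top_eq_zero_of_forall (hT : s58top_IsTate W lam ρ π) (c : ℤ_[lam])
    (h : ∀ n : ℕ, ∃ v w : ρ.V, lam ^ n • π (n + 1) v ≠ 0 ∧ c • v = (lam : ℤ_[lam]) ^ (n + 1) • w) :
    c = 0 := by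
  by_contra hc
  have hlam0 : (lam : ℤ_[lam]) ≠ 0 := by exact_mod_cast (Fact.out : lam.Prime).ne_zero
  obtain ⟨k, u, hcu⟩ : ∃ (k : ℕ) (u : ℤ_[lam]ˣ), c = (u : ℤ_[lam]) * (lam : ℤ_[lam]) ^ k :=
    ⟨c.valuation, PadicInt.unitCoeff hc, PadicInt.unitCoeff_spec hc⟩
  obtain ⟨v, w, hv, hcv⟩ := h k
  have h1 : (lam : ℤ_[lam]) ^ k • ((u : ℤ_[lam]) • v - (lam : ℤ_[lam]) • w) = 0 := by
    rw [smul_sub, smul_smul, smul_smul, mul_comm, ← hcu, hcv, ← pow_succ]
    exact sub_self _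
  have h2 : (u : ℤ_[lam]) • v - (lam : ℤ_[lam]) • w = 0 :=
    (smul_eq_zero.mp h1).resolve_left (pow_ne_zero k hlam0)
  have h3 : v = (lam : ℤ_[lam]) • (((u⁻¹ : ℤ_[lam]ˣ) : ℤ_[lam]) • w) := by
    rw [smul_smul, mul_comm, ← smul_smul, ← sub_eq_zero.mp h2, smul_smul, Units.inv_mul, one_smul]
  apply hv
  rw [h3, s58top_pi_natCast_smul π, hT.compat, hT.tor]

/-- **(S-FIX) on the Tate module**: `1` is a root of the characteristic polynomial of `ρ(σ)` for
`σ` in an inertia group at `q ≠ lam`. -/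
theorem s58top_eval_one (hX : s58_FixSeam) (hT : s58top_IsTate W lam ρ π)
    (hss : W.IsSemistableModel) (hΔ : W.Δ ≠ 0) (hlam : lam ≠ 2) {q : ℕ} (hq : q.Prime)
    (hqlam : q ≠ lam) (A : ValuationSubring s58_Qb) (hA : A.LiesOverPrime q) (σ : s58_G)
    (hσ : σ ∈ A.inertiaSubgroupIn ℚ) :
    (LinearMap.charpoly (ρ.ρ σ)).eval 1 = 0 := by
  set g := ρ.ρ σ with hg
  set χ := LinearMap.charpoly g with hχ
  obtain ⟨Q, hdecomp⟩ : ∃ Q : ℤ_[lam][X], χ = C (χ.eval 1) + Q * (X - C 1) := by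
    refine ⟨χ /ₘ (X - C 1), ?_⟩
    have h1 := modByMonic_add_div χ (X - C 1)
    rw [modByMonic_X_sub_C_eq_C_eval] at h1
    rw [mul_comm]; exact h1.symm
  have hCH : aeval g (C (χ.eval 1) + Q * (X - C 1)) = 0 := by
    rw [← hdecomp]; exact LinearMap.aeval_self_charpoly g
  rw [map_add, map_mul, map_sub, aeval_C, aeval_X, aeval_C, Algebra.algebraMap_eq_smul_one,
    Algebra.algebraMap_eq_smul_one, one_smul] at hCH
  refine s58top_eq_zero_of_forall hT _ fun n => ?_
  obtain ⟨P, hP1, hP2, hP3⟩ := hX W hss hΔ lam q (Fact.out : lam.Prime) hlam hq hqlam A hA n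
  obtain ⟨v, hv⟩ := hT.surj (n + 1) P hP1
  have h0 : π (n + 1) (g v - v) = 0 := by
    rw [map_sub, hg, hT.gal, hv, hP3 σ hσ, sub_self]
  obtain ⟨w, hw⟩ := hT.ker (n + 1) _ h0
  refine ⟨v, -(aeval g Q w), by rw [hv]; exact hP2, ?_⟩
  have h1 := LinearMap.congr_fun hCH v
  rw [LinearMap.add_apply, Module.End.mul_apply, LinearMap.sub_apply, Module.End.one_apply,
    LinearMap.zero_apply, hw, map_smul, LinearMap.smul_apply, Module.End.one_apply] at h1
  rw [smul_neg, ← add_eq_zero_iff_eq_neg]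
  exact h1

end Fix

/-! ### scalars and base change -/

theorem s58top_scalar_of_baseChange {A B : Type} [CommRing A] [CommRing B] [Algebra A B]
    (hinj : Function.Injective (algebraMap A B)) {V : Type} [AddCommGroup V] [Module A V]
    (b : Module.Basis (Fin 2) A V) (f : Module.End A V) (s : B)
    (h : f.baseChange B = s • (1 : Module.End B (B ⊗[A] V))) :
    ∃ a : A, f = a • (1 : Module.End A V) := by
  have key : ∀ i j : Fin 2, algebraMap A B (b.repr (f (b i)) j) = if i = j then s else 0 := by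
    intro i j
    have h1 := LinearMap.congr_fun h ((1 : B) ⊗ₜ[A] b i)
    rw [LinearMap.baseChange_tmul, LinearMap.smul_apply, Module.End.one_apply] at h1
    have h2 := congrArg (fun x => (Algebra.TensorProduct.basis B b).repr x j) h1
    simp only [Algebra.TensorProduct.basis_repr_tmul, map_smul, Finsupp.smul_apply,
      Finsupp.mapRange_apply, Module.Basis.repr_self, Finsupp.single_apply, smul_eq_mul,
      one_mul] at h2
    rw [h2]
    split_ifs <;> simp
  refine ⟨b.repr (f (b 0)) 0, b.ext fun i => b.repr.injective (Finsupp.ext fun j => hinj ?_)⟩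
  rw [key, LinearMap.smul_apply, Module.End.one_apply, map_smul, Module.Basis.repr_self,
    Finsupp.smul_apply, Finsupp.single_apply, smul_eq_mul, map_mul, key, if_pos rfl]
  split_ifs <;> simp

/-- a non-scalar endomorphism stays non-scalar after an injective base change -/
theorem s58top_baseChange_nonscalar {A B : Type} [CommRing A] [IsLocalRing A] [CommRing B]
    [IsLocalRing B] (φ : A →+* B) (hφ : IsLocalHom φ) (hinj : Function.Injective φ)
    (ρ : GaloisRepAdic A) (σ : s58_G) (h : ∀ a : A, ρ.ρ σ ≠ a • (1 : Module.End A ρ.V)) :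
    ∀ s : B, (ρ.baseChangeAlong φ hφ).ρ σ ≠ s • (1 : Module.End B (ρ.baseChangeAlong φ hφ).V) := by
  letI : Algebra A B := φ.toAlgebra
  intro s hs
  obtain ⟨a, ha⟩ := s58top_scalar_of_baseChange (A := A) (B := B) hinj
    (Module.finBasisOfFinrankEq A ρ.V ρ.finrank_eq) (ρ.ρ σ) s hs
  exact h a ha

theorem s58top_zmod_smul {n : ℕ} [NeZero n] {M : Type*} [AddCommGroup M] [Module (ZMod n) M]
    (c : ZMod n) (x : M) : c • x = c.val • x := by
  conv_lhs => rw [← ZMod.natCast_zmod_val c]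
  rw [Nat.cast_smul_eq_nsmul]

/-! ### consequences of the irreducibility of `W[p]` -/

section Irr

open WeierstrassCurve.Affine.Point

variable {W : WeierstrassCurve ℤ} {p : ℕ} [Fact p.Prime] {ρ : GaloisRepAdic ℤ_[p]}
  {π : ℕ → ρ.V →+ s58_E W}

theorem s58top_pi_one_mem (hT : s58top_IsTate W p ρ π) (v : ρ.V) :
    π 1 v ∈ Submodule.torsionBy ℤ (s58_E W) p := by
  rw [Submodule.mem_torsionBy_iff, natCast_zsmul]
  have := hT.tor 1 v
  rwa [pow_one] at this

theorem s58top_Δ_ne_zero (hΔ : W.Δ ≠ 0) : ((s58_WQ W)⁄s58_Qb).Δ ≠ 0 := by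
  show ((W.map (Int.castRingHom ℚ)).map (algebraMap ℚ s58_Qb)).Δ ≠ 0
  rw [WeierstrassCurve.map_Δ, WeierstrassCurve.map_Δ]
  simpa using hΔ

/-- some `σ` acts on `T_p W` by a non-scalar -/
theorem s58top_exists_nonscalar (hT : s58top_IsTate W p ρ π) (hΔ : W.Δ ≠ 0) (hp2 : p ≠ 2)
    (hirr : W.ModRepIsIrreducible p) :
    ∃ σ : s58_G, ∀ a : ℤ_[p], ρ.ρ σ ≠ a • (1 : Module.End ℤ_[p] ρ.V) := by
  by_contra hcon
  push Not at hcon
  haveI : NeZero p := ⟨(Fact.out : p.Prime).ne_zero⟩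
  obtain ⟨hnt, hN⟩ := hirr
  obtain ⟨x, hx⟩ := exists_ne (0 : Submodule.torsionBy ℤ (s58_E W) p)
  have hstable : IsGaloisStable ℚ (Submodule.span (ZMod p) {x}) := by
    intro σ y hy
    obtain ⟨c, rfl⟩ := Submodule.mem_span_singleton.mp hy
    have hxp : p ^ 1 • (x : s58_E W) = 0 := by
      have := x.2
      rw [Submodule.mem_torsionBy_iff, natCast_zsmul] at this
      rwa [pow_one]
    obtain ⟨v, hv⟩ := hT.surj 1 x.1 hxp
    obtain ⟨a, ha⟩ := hcon σ
    have h1 : σ • x = (PadicInt.toZModPow 1 a).val • x := by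
      apply Subtype.ext
      show σ • (x : s58_E W) = (PadicInt.toZModPow 1 a).val • (x : s58_E W)
      rw [← hv, ← hT.gal, ha, LinearMap.smul_apply, Module.End.one_apply, hT.smul]
    rw [s58top_zmod_smul, smul_comm, h1]
    exact Submodule.smul_of_tower_mem _ _ (Submodule.smul_of_tower_mem _ _
      (Submodule.mem_span_singleton_self x))
  have h2 := ld_finrank_torsionBy (K := s58_Qb) (s58_WQ W) (s58top_Δ_ne_zero hΔ) hp2
  rcases hN _ hstable with h | h
  · exact hx ((Submodule.span_singleton_eq_bot).mp h)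
  · have h3 := finrank_span_singleton (K := ZMod p) hx
    rw [h, finrank_top] at h3
    exact absurd (h2.symm.trans h3) (by norm_num)

/-- the residual representation of `T_p W` is irreducible -/
theorem s58top_residual_irreducible (hT : s58top_IsTate W p ρ π)
    (hirr : W.ModRepIsIrreducible p) : ρ.residual.IsIrreducible := by
  intro U hU
  haveI : NeZero p := ⟨(Fact.out : p.Prime).ne_zero⟩
  obtain ⟨-, hN⟩ := hirr
  let ι : ρ.V →ₗ[ℤ_[p]] (ResidueField ℤ_[p] ⊗[ℤ_[p]] ρ.V) :=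
    TensorProduct.mk ℤ_[p] (ResidueField ℤ_[p]) ρ.V 1
  have hι : ∀ v, ι v = (1 : ResidueField ℤ_[p]) ⊗ₜ[ℤ_[p]] v := fun _ => rfl
  have hιsurj : Function.Surjective ι := by
    intro u
    induction u using TensorProduct.induction_on with
    | zero => exact ⟨0, map_zero _⟩
    | tmul c v =>
      obtain ⟨a, rfl⟩ := residue_surjective c
      refine ⟨a • v, ?_⟩
      rw [hι, ← TensorProduct.smul_tmul, Algebra.smul_def, mul_one]
      rfl
    | add x y hx hy =>
      obtain ⟨v, rfl⟩ := hx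
      obtain ⟨w, rfl⟩ := hy
      exact ⟨v + w, map_add _ _ _⟩
  have hιp : ∀ w : ρ.V, ι ((p : ℤ_[p]) • w) = 0 := by
    intro w
    rw [hι, ← TensorProduct.smul_tmul, Algebra.smul_def, mul_one,
      ResidueField.algebraMap_eq, (residue_eq_zero_iff _).mpr, TensorProduct.zero_tmul]
    rw [PadicInt.maximalIdeal_eq_span_p]
    exact Ideal.mem_span_singleton_self _
  let π1 : ρ.V →+ Submodule.torsionBy ℤ (s58_E W) p :=
    (π 1).codRestrict (Submodule.torsionBy ℤ (s58_E W) p) (s58top_pi_one_mem hT)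
  have hπ1 : ∀ v, ((π1 v : Submodule.torsionBy ℤ (s58_E W) p) : s58_E W) = π 1 v := fun _ => rfl
  have hker : ∀ v, π1 v = 0 → ∃ w, v = (p : ℤ_[p]) • w := by
    intro v hv
    have h0 : π 1 v = 0 := by rw [← hπ1, hv]; rfl
    obtain ⟨w, hw⟩ := hT.ker 1 v h0
    exact ⟨w, by rw [hw, pow_one]⟩
  let H : AddSubgroup (Submodule.torsionBy ℤ (s58_E W) p) :=
    AddSubgroup.map π1 (AddSubgroup.comap ι.toAddMonoidHom U.toAddSubgroup)
  have hH : ∀ x, x ∈ H ↔ ∃ v, ι v ∈ U ∧ π1 v = x := fun x => Iff.rfl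
  have hstable : IsGaloisStable ℚ (AddSubgroup.toZModSubmodule p H) := by
    intro σ x hx
    obtain ⟨v, hvU, rfl⟩ := (hH x).mp hx
    refine (hH _).mpr ⟨ρ.ρ σ v, hU σ _ hvU, ?_⟩
    apply Subtype.ext
    show π 1 (ρ.ρ σ v) = σ • π 1 v
    exact hT.gal 1 σ v
  rcases hN _ hstable with h | h
  · left
    rw [eq_bot_iff]
    intro u hu
    obtain ⟨v, rfl⟩ := hιsurj u
    have h1 : π1 v ∈ AddSubgroup.toZModSubmodule p H := (hH _).mpr ⟨v, hu, rfl⟩
    rw [h, Submodule.mem_bot] at h1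
    obtain ⟨w, rfl⟩ := hker v h1
    rw [hιp]
    exact Submodule.zero_mem _
  · right
    rw [eq_top_iff]
    intro u _
    obtain ⟨v, rfl⟩ := hιsurj u
    have h1 : π1 v ∈ AddSubgroup.toZModSubmodule p H := by rw [h]; exact Submodule.mem_top
    obtain ⟨v', hv'U, hv'⟩ := (hH _).mp h1
    obtain ⟨w, hw⟩ := hker (v - v') (by rw [map_sub, hv', sub_self])
    have h2 : ι v = ι v' := by
      rw [← sub_eq_zero, ← map_sub, hw, hιp]
    rw [h2]
    exact hv'U

end Irr

end Fermat.Agent.S58
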