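/-
S58 project, cell [TOP] (helper21), part 3: comparison of a modular `λ`-adic representation with
the Tate module of `W`.  Prefix `s58top_`.

* `s58top_padicHom_isLocalHom`, `s58top_padicHom_injective` : the structure map `ℤ_[p] → O`;
* `s58top_cmp`     : [CMP] with `ρ₂ = T_λ W ⊗ O`;
* `s58top_trace_eq`: two monic quadratic relations with the same constant term for an invertible
                     endomorphism have the same trace term;
* `s58top_compare` : [CMP] + [Z] + [CMP-DET] at `λ = p`: equality of all characteristic polynomials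
                     and `det ρ = ε`;
* `s58top_hres`    : the hypothesis `hres` of S36: `ρ.residual` absolutely irreducible and odd.
-/
import Mathlib
import Fermat.Agent.S58.Top.Glue
import Fermat.Agent.S58.CharpolyCmp
import Fermat.Agent.S58.Odd

set_option autoImplicit false
set_option linter.style.haveILetI false

open Polynomial IsLocalRing
open scoped WeierstrassCurve.Affine TensorProduct

namespace Fermat.Agent.S58

open Fermat.Agent.JT3

/-! ### the structure map `ℤ_[p] → O` -/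

section PadicHom

variable (p : ℕ) [Fact p.Prime] (O : Type) [CommRing O] [IsLocalRing O]
  [IsAdicComplete (maximalIdeal O) O] (hp : (p : O) ∈ maximalIdeal O)

theorem s58top_padicHom_isLocalHom : IsLocalHom (cya_padicHom p O hp) := by
  refine ⟨fun x hx => ?_⟩
  by_contra hxu
  have h1 : x ∈ maximalIdeal ℤ_[p] := (mem_maximalIdeal x).mpr hxu
  rw [PadicInt.maximalIdeal_eq_span_p, Ideal.mem_span_singleton'] at h1
  obtain ⟨y, rfl⟩ := h1
  rw [map_mul, map_natCast] at hx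
  exact ((mem_maximalIdeal _).mp (Ideal.mul_mem_left _ _ hp)) hx

theorem s58top_padicHom_injective [IsDomain O] [CharZero O] :
    Function.Injective (cya_padicHom p O hp) := by
  rw [injective_iff_map_eq_zero]
  intro x hx
  by_contra hx0
  have h1 := PadicInt.unitCoeff_spec hx0
  rw [h1, map_mul, map_pow, map_natCast] at hx
  rcases mul_eq_zero.mp hx with h | h
  · exact ((PadicInt.unitCoeff hx0).isUnit.map (cya_padicHom p O hp)).ne_zero h
  · exact pow_ne_zero _ (Nat.cast_ne_zero.mpr (Fact.out : p.Prime).ne_zero) h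

omit [IsAdicComplete (maximalIdeal O) O] in
include hp in
/-- `2` is invertible in the residue field (`p` odd) -/
theorem s58top_two_ne_zero (hp2 : p ≠ 2) : (2 : ResidueField O) ≠ 0 := by
  intro h
  have h2 : (2 : O) ∈ maximalIdeal O := by
    rw [← residue_eq_zero_iff, map_ofNat]; exact h
  obtain ⟨m, hm⟩ := (Fact.out : p.Prime).odd_of_ne_two hp2
  have h1 : (1 : O) = (p : O) - 2 * (m : O) := by
    rw [hm]; push_cast; ring
  have h3 : (1 : O) ∈ maximalIdeal O := by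
    rw [h1]; exact Ideal.sub_mem _ hp (Ideal.mul_mem_right _ _ h2)
  exact (Ideal.ne_top_iff_one _).mp (maximalIdeal.isMaximal O).ne_top h3

end PadicHom

theorem s58top_natCast_mem_of_isLocalHom {O' O'' : Type} [CommRing O'] [IsLocalRing O']
    [CommRing O''] [IsLocalRing O''] [Algebra O' O''] [IsLocalHom (algebraMap O' O'')] {p : ℕ}
    (hp : (p : O') ∈ maximalIdeal O') : (p : O'') ∈ maximalIdeal O'' := by
  rw [← map_natCast (algebraMap O' O'')]
  exact (mem_maximalIdeal _).mpr (map_nonunit (algebraMap O' O'') _ ((mem_maximalIdeal _).mp hp))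

/-! ### [CMP] against the Tate module -/

section Cmp

variable {W : WeierstrassCurve ℤ} {lam : ℕ} [Fact lam.Prime] {ρW : GaloisRepAdic ℤ_[lam]}
  {π : ℕ → ρW.V →+ s58_E W}

theorem s58top_cmp (hF : s58_FrobSeam) (hC : s58_CmpSeam) (hT : s58top_IsTate W lam ρW π)
    (O : Type) [CommRing O] [IsDomain O] [IsDiscreteValuationRing O] (φ : ℤ_[lam] →+* O)
    (hφ : IsLocalHom φ) (ρ₁ : GaloisRepAdic O) (S : Finset ℕ)
    (hS : ∀ ℓ : ℕ, ℓ.Prime → ℓ ∉ S → ℓ ≠ lam ∧ ¬ (ℓ : ℤ) ∣ W.Δ)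
    (h₁ : ∀ ℓ : ℕ, ℓ.Prime → ℓ ∉ S → ∀ A : ValuationSubring s58_Qb, A.LiesOverPrime ℓ →
      ∀ σ : s58_G, A.IsFrobeniusAt σ ℓ →
        LinearMap.charpoly (ρ₁.ρ σ) = X ^ 2 - C ((W.apOfModel ℓ : ℤ) : O) * X + C (ℓ : O)) :
    ∀ σ : s58_G,
      aeval ((ρW.baseChangeAlong φ hφ).ρ σ) (LinearMap.charpoly (ρ₁.ρ σ)) = 0 :=
  hC O ρ₁ (ρW.baseChangeAlong φ hφ) S (fun ℓ => ((W.apOfModel ℓ : ℤ) : O)) (fun ℓ => (ℓ : O)) h₁
    (fun ℓ hℓ hℓS A hA σ hσ => by
      have h := s58top_baseChange_rel φ hφ ρW σ _ _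
        (s58top_frob_rel hF hT hℓ (hS ℓ hℓ hℓS).2 (hS ℓ hℓ hℓS).1 A hA σ hσ)
      rwa [map_intCast, map_natCast] at h)

/-- the Frobenius relation on `T_λ W ⊗ O` -/
theorem s58top_frob_rel' (hF : s58_FrobSeam) (hT : s58top_IsTate W lam ρW π)
    (O : Type) [CommRing O] [IsLocalRing O] (φ : ℤ_[lam] →+* O) (hφ : IsLocalHom φ) {ℓ : ℕ}
    (hℓ : ℓ.Prime) (hgood : ¬ (ℓ : ℤ) ∣ W.Δ) (hne : ℓ ≠ lam)
    (A : ValuationSubring s58_Qb) (hA : A.LiesOverPrime ℓ) (σ : s58_G)
    (hσ : A.IsFrobeniusAt σ ℓ) :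
    ((ρW.baseChangeAlong φ hφ).ρ σ) ^ 2
      - ((W.apOfModel ℓ : ℤ) : O) • (ρW.baseChangeAlong φ hφ).ρ σ
      + (ℓ : O) • (1 : Module.End O (ρW.baseChangeAlong φ hφ).V) = 0 := by
  have h := s58top_baseChange_rel φ hφ ρW σ _ _ (s58top_frob_rel hF hT hℓ hgood hne A hA σ hσ)
  rwa [map_intCast, map_natCast] at h

end Cmp

/-- two monic quadratic relations with the same constant term for `ρ(σ)` have the same middle
coefficient -/
theorem s58top_trace_eq {O : Type} [CommRing O] [IsDomain O] [IsLocalRing O]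
    (ρ₂ : GaloisRepAdic O) (σ : s58_G) (t t' d : O)
    (h1 : (ρ₂.ρ σ) ^ 2 - t • ρ₂.ρ σ + d • (1 : Module.End O ρ₂.V) = 0)
    (h2 : (ρ₂.ρ σ) ^ 2 - t' • ρ₂.ρ σ + d • (1 : Module.End O ρ₂.V) = 0) : t = t' := by
  have h3 : (t' - t) • ρ₂.ρ σ = 0 := by
    rw [sub_smul]
    have := congrArg₂ (· - ·) h1 h2
    simp only [sub_self] at this
    rw [← this]; abel
  have h4 : (t' - t) • (1 : Module.End O ρ₂.V) = 0 := by
    have h5 : ρ₂.ρ σ * ρ₂.ρ σ⁻¹ = 1 := by rw [← map_mul, mul_inv_cancel, map_one]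
    rw [← h5, ← smul_mul_assoc, h3, zero_mul]
  have := s58z_smul_one_eq_zero ρ₂.finrank_eq h4
  exact (sub_eq_zero.mp this).symm

theorem s58top_aeval_quadratic {O : Type} [CommRing O] {V : Type} [AddCommGroup V] [Module O V]
    (f : Module.End O V) (t d : O) :
    aeval f (X ^ 2 - C t * X + C d : O[X]) = f ^ 2 - t • f + d • (1 : Module.End O V) := by
  rw [map_add, map_sub, map_pow, map_mul, aeval_X, aeval_C, aeval_C,
    Algebra.algebraMap_eq_smul_one, Algebra.algebraMap_eq_smul_one, smul_mul_assoc, one_mul]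

/-! ### the comparison at `λ = p` -/

section Compare

variable {W : WeierstrassCurve ℤ} {p : ℕ} [Fact p.Prime] {ρW : GaloisRepAdic ℤ_[p]}
  {π : ℕ → ρW.V →+ s58_E W}

/-- [CMP] + [Z] + [CMP-DET]: a `p`-adic representation with the Frobenius characteristic
polynomials of `W` outside a finite set has the characteristic polynomials of `T_p W` everywhere,
and cyclotomic determinant. -/
theorem s58top_compare (hF : s58_FrobSeam) (hC : s58_CmpSeam) (hZ : s58_ZSeam) (hD : s58_DetSeam)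
    (hΔ : W.Δ ≠ 0) (hp2 : p ≠ 2) (hirr : W.ModRepIsIrreducible p)
    (hT : s58top_IsTate W p ρW π)
    (O : Type) [CommRing O] [IsDomain O] [IsDiscreteValuationRing O]
    [IsAdicComplete (maximalIdeal O) O] [CharZero O] (hp : (p : O) ∈ maximalIdeal O)
    (ρ : GaloisRepAdic O) (S : Finset ℕ)
    (hS : ∀ ℓ : ℕ, ℓ.Prime → ℓ ∉ S → ℓ ≠ p ∧ ¬ (ℓ : ℤ) ∣ W.Δ)
    (h₁ : ∀ ℓ : ℕ, ℓ.Prime → ℓ ∉ S → ∀ A : ValuationSubring s58_Qb, A.LiesOverPrime ℓ →
      ∀ σ : s58_G, A.IsFrobeniusAt σ ℓ →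
        LinearMap.charpoly (ρ.ρ σ) = X ^ 2 - C ((W.apOfModel ℓ : ℤ) : O) * X + C (ℓ : O)) :
    (∀ σ : s58_G, LinearMap.charpoly (ρ.ρ σ)
        = (LinearMap.charpoly (ρW.ρ σ)).map (cya_padicHom p O hp)) ∧
    (∀ σ : s58_G, LinearMap.det (ρ.ρ σ) = cya_eps p O hp σ) := by
  have hφ := s58top_padicHom_isLocalHom p O hp
  have hinj := s58top_padicHom_injective p O hp
  constructor
  · have hcmp := s58top_cmp hF hC hT O (cya_padicHom p O hp) hφ ρ S hS h₁
    obtain ⟨σ₀, h0⟩ := s58top_exists_nonscalar hT hΔ hp2 hirr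
    have h0' := s58top_baseChange_nonscalar (cya_padicHom p O hp) hφ hinj ρW σ₀ h0
    intro σ
    rw [hZ O ρ (ρW.baseChangeAlong (cya_padicHom p O hp) hφ) hcmp ⟨σ₀, h0'⟩ σ,
      s58top_baseChange_charpoly]
  · refine hD p O hp ρ S fun ℓ hℓ hℓS A hA σ hσ => ?_
    rw [← s58z_charpoly_coeff_zero ρ.finrank_eq, h₁ ℓ hℓ hℓS A hA σ hσ]
    simp

/-- the hypothesis `hres` of S36 -/
theorem s58top_hres (hF : s58_FrobSeam) (hC : s58_CmpSeam) (hZ : s58_ZSeam) (hD : s58_DetSeam)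
    (hIA : s58_IrrAbsSeam) (hBN : s58_BN2Seam)
    (hΔ : W.Δ ≠ 0) (hp2 : p ≠ 2) (hirr : W.ModRepIsIrreducible p)
    (hT : s58top_IsTate W p ρW π)
    (O : Type) [CommRing O] [IsDomain O] [IsDiscreteValuationRing O]
    [IsAdicComplete (maximalIdeal O) O] [CharZero O] (hp : (p : O) ∈ maximalIdeal O)
    (ρ : GaloisRepAdic O) (S : Finset ℕ)
    (hS : ∀ ℓ : ℕ, ℓ.Prime → ℓ ∉ S → ℓ ≠ p ∧ ¬ (ℓ : ℤ) ∣ W.Δ)
    (h₁ : ∀ ℓ : ℕ, ℓ.Prime → ℓ ∉ S → ∀ A : ValuationSubring s58_Qb, A.LiesOverPrime ℓ →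
      ∀ σ : s58_G, A.IsFrobeniusAt σ ℓ →
        LinearMap.charpoly (ρ.ρ σ) = X ^ 2 - C ((W.apOfModel ℓ : ℤ) : O) * X + C (ℓ : O)) :
    ρ.residual.IsAbsolutelyIrreducible ∧ ρ.residual.IsOdd := by
  obtain ⟨hχ, hdet⟩ := s58top_compare hF hC hZ hD hΔ hp2 hirr hT O hp ρ S hS h₁
  have hφ := s58top_padicHom_isLocalHom p O hp
  have hinj := s58top_padicHom_injective p O hp
  refine ⟨?_, s58od_residual_isOdd ρ ((Fact.out : p.Prime).odd_of_ne_two hp2)
    (cya_detIsCyclotomic p ρ hp hdet)⟩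
  -- `det ρ_W(c) = -1`
  have hc : LinearMap.det (ρW.ρ complexConjugation) = -1 := by
    apply hinj
    rw [map_neg, map_one, ← cya_eps_complexConjugation p O hp, ← hdet,
      ← s58z_charpoly_coeff_zero ρ.finrank_eq, hχ, coeff_map,
      s58z_charpoly_coeff_zero ρW.finrank_eq]
  have hpZ : (p : ℤ_[p]) ∈ maximalIdeal ℤ_[p] := by
    rw [PadicInt.maximalIdeal_eq_span_p]; exact Ideal.mem_span_singleton_self _
  have hW : ρW.residual.IsAbsolutelyIrreducible :=
    hIA (ResidueField ℤ_[p]) ρW.residual (s58top_two_ne_zero p ℤ_[p] hpZ hp2)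
      (s58top_residual_irreducible hT hirr)
      ⟨complexConjugation, complexConjugation_mul_self, by
        rw [s58top_residual_det, hc, map_neg, map_one]⟩
  haveI := hφ
  refine hBN (ResidueField ℤ_[p]) (ResidueField O) (ResidueField.map (cya_padicHom p O hp))
    ρW.residual ρ.residual (s58top_two_ne_zero p O hp hp2) hW fun σ => ?_
  rw [s58top_residual_charpoly, s58top_residual_charpoly, hχ, Polynomial.map_map,
    Polynomial.map_map]
  rfl

end Compare

end Fermat.Agent.S58
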