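/-
S58 project, cell [TOP] (helper21), part 1: the elementary reductions.  Prefix `s58top_`.

* `s58top_ne_zero`     : the hypotheses of S58 force `W.Δ ≠ 0` and `N ≠ 0`;
* `s58top_minLevel`    : [MIN-LEVEL] an eigenform of level `N ≠ 0` has the same good eigenvalues as
                         a (prelude) newform of some level `M ∣ N`;
* `s58top_card_pos`, `s58top_card_le` : [COUNT-BOUND] `1 ≤ #W'(𝔽_q) ≤ 2 q + 1`;
* `s58top_ap_ne`       : `a_q(W) ≠ ± (q + 1)`.
-/
import Mathlib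
import Fermat.Agent.S58.Seams

set_option autoImplicit false

open Polynomial
open scoped WeierstrassCurve.Affine

namespace Fermat.Agent.S58

/-! ### `Δ ≠ 0`, `N ≠ 0` -/

theorem s58top_ne_zero (W : WeierstrassCurve ℤ) (N : ℕ)
    (hbad : ∀ ℓ : ℕ, ℓ.Prime → (ℓ : ℤ) ∣ W.Δ → ℓ ∣ N)
    (hN3 : ∀ q : ℕ, q.Prime → ¬ q ^ 3 ∣ N) : W.Δ ≠ 0 ∧ N ≠ 0 := by
  have hN : N ≠ 0 := by
    rintro rfl
    exact hN3 2 Nat.prime_two (dvd_zero _)
  refine ⟨fun hΔ => ?_, hN⟩
  obtain ⟨ℓ, hℓN, hℓ⟩ := Nat.exists_infinite_primes (N + 1)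
  have h1 : ℓ ∣ N := hbad ℓ hℓ (by rw [hΔ]; exact dvd_zero _)
  have h2 := Nat.le_of_dvd (Nat.pos_of_ne_zero hN) h1
  omega

/-! ### [MIN-LEVEL] -/

open CuspForm in
theorem s58top_minLevel {N : ℕ} (hN : N ≠ 0) (f : CuspForm (CongruenceSubgroup.Gamma0 N) 2)
    (hf : f.IsNormalizedEigenform) :
    ∃ (M : ℕ) (_ : M ∣ N) (g : CuspForm (CongruenceSubgroup.Gamma0 M) 2), g.IsNewform ∧
      ∀ ℓ : ℕ, ℓ.Prime → ¬ ℓ ∣ N → ModularFormClass.qCoeff g ℓ = ModularFormClass.qCoeff f ℓ := by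
  classical
  have hex : ∃ M : ℕ, M ∣ N ∧ GoodEigensystemOccursAt f M :=
    ⟨N, dvd_rfl, GoodEigensystemOccursAt.refl hf⟩
  obtain ⟨hMN, g, hg, hgf⟩ := Nat.find_spec hex
  refine ⟨Nat.find hex, hMN, g, ⟨hg, fun M' hM' hne hocc => ?_⟩, hgf⟩
  obtain ⟨g', hg', hg'g⟩ := hocc
  have hlt : M' < Nat.find hex := by
    have hpos : 0 < Nat.find hex := Nat.pos_of_ne_zero (fun h0 => hN (by
      rw [h0] at hMN; exact zero_dvd_iff.mp hMN))
    exact lt_of_le_of_ne (Nat.le_of_dvd hpos hM') hne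
  refine Nat.find_min hex hlt ⟨hM'.trans hMN, g', hg', fun ℓ hℓ hℓN => ?_⟩
  rw [hg'g ℓ hℓ (fun h => hℓN (h.trans hMN)), hgf ℓ hℓ hℓN]

/-! ### [COUNT-BOUND] -/

section Count

variable {q : ℕ} [Fact q.Prime] (W' : WeierstrassCurve (ZMod q))

theorem s58top_card_pos : 0 < Nat.card W'.toAffine.Point :=
  Nat.card_pos

/-- the quadratic in `Y` cut out by the Weierstrass equation at `X = x` -/
noncomputable def s58top_quad (x : ZMod q) : (ZMod q)[X] :=
  C 1 * X ^ 2 + C (W'.a₁ * x + W'.a₃) * X + C (-(x ^ 3 + W'.a₂ * x ^ 2 + W'.a₄ * x + W'.a₆))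

theorem s58top_quad_ne_zero (x : ZMod q) : s58top_quad W' x ≠ 0 := by
  intro h
  have h2 := natDegree_quadratic (a := (1 : ZMod q)) (b := W'.a₁ * x + W'.a₃)
    (c := -(x ^ 3 + W'.a₂ * x ^ 2 + W'.a₄ * x + W'.a₆)) one_ne_zero
  rw [show C (1 : ZMod q) * X ^ 2 + C (W'.a₁ * x + W'.a₃) * X
    + C (-(x ^ 3 + W'.a₂ * x ^ 2 + W'.a₄ * x + W'.a₆)) = s58top_quad W' x from rfl, h,
    natDegree_zero] at h2
  exact absurd h2 (by norm_num)

theorem s58top_quad_roots_card (x : ZMod q) : Multiset.card (s58top_quad W' x).roots ≤ 2 :=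
  (card_roots' _).trans natDegree_quadratic_le

theorem s58top_equation_iff (x y : ZMod q) :
    W'.toAffine.Equation x y ↔ y ∈ (s58top_quad W' x).roots := by
  rw [mem_roots (s58top_quad_ne_zero W' x), IsRoot.def, WeierstrassCurve.Affine.equation_iff]
  simp only [s58top_quad, eval_add, eval_mul, eval_C, eval_pow, eval_X]
  constructor
  · intro h; linear_combination h
  · intro h; linear_combination h

theorem s58top_card_le : Nat.card W'.toAffine.Point ≤ 2 * q + 1 := by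
  classical
  have : NeZero q := ⟨(Fact.out : q.Prime).ne_zero⟩
  let S : Type := Σ x : ZMod q, {y : ZMod q // y ∈ (s58top_quad W' x).roots.toFinset}
  let f : W'.toAffine.Point → Option S := fun P =>
    match P with
    | .zero => none
    | .some x y h => some ⟨x, y, Multiset.mem_toFinset.mpr ((s58top_equation_iff W' x y).mp h.1)⟩
  have hf : Function.Injective f := by
    rintro (_ | ⟨x₁, y₁, h₁⟩) (_ | ⟨x₂, y₂, h₂⟩) h
    · rfl
    · exact absurd h (by simp [f])
    · exact absurd h (by simp [f])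
    · simp only [f, Option.some.injEq] at h
      obtain ⟨rfl, h2⟩ := Sigma.mk.inj_iff.mp h
      have h3 := congrArg Subtype.val (eq_of_heq h2)
      simp only at h3
      subst h3
      rfl
  have h1 : Nat.card W'.toAffine.Point ≤ Nat.card (Option S) := Nat.card_le_card_of_injective f hf
  have h2 : Nat.card (Option S) = Nat.card S + 1 := by
    rw [Nat.card_eq_fintype_card, Fintype.card_option, Nat.card_eq_fintype_card]
  have h3 : Nat.card S ≤ 2 * q := by
    rw [Nat.card_eq_fintype_card, Fintype.card_sigma]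
    calc ∑ x : ZMod q, Fintype.card {y : ZMod q // y ∈ (s58top_quad W' x).roots.toFinset}
        ≤ ∑ _x : ZMod q, 2 := Finset.sum_le_sum fun x _ => by
          rw [Fintype.card_coe]
          exact (Multiset.toFinset_card_le _).trans (s58top_quad_roots_card W' x)
      _ = 2 * q := by rw [Finset.sum_const, Finset.card_univ, ZMod.card, smul_eq_mul, mul_comm]
  omega

end Count

/-- `a_q(W) ≠ ± (q + 1)` -/
theorem s58top_ap_ne (W : WeierstrassCurve ℤ) {q : ℕ} (hq : q.Prime) :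
    W.apOfModel q ≠ (q : ℤ) + 1 ∧ W.apOfModel q ≠ -((q : ℤ) + 1) := by
  have : Fact q.Prime := ⟨hq⟩
  have h1 := s58top_card_pos (W.reductionMod q)
  have h2 := s58top_card_le (W.reductionMod q)
  have h3 : W.apOfModel q = (q : ℤ) + 1 - (Nat.card (W.reductionMod q).toAffine.Point : ℤ) := by
    rw [WeierstrassCurve.apOfModel, WeierstrassCurve.traceOfFrobenius, WeierstrassCurve.card,
      Nat.card_zmod]
  constructor
  · intro h; rw [h3] at h; omega
  · intro h; rw [h3] at h; omega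

end Fermat.Agent.S58
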