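/-
S58 project, cell [TOP] (helper21), part 4: the three local arguments.  Prefix `s58top_`.

`g` is a newform of level `M ∣ N` with `a_ℓ(g) = a_ℓ(W)` for all primes `ℓ ∤ N`.

* `s58top_s35_package` : S35 + [COEF] + [CMP] for `g`, an odd prime `lam` and a finite set `S`;
* `s58top_caseC` : (C) `a_ℓ(g) = a_ℓ(W)` at a good prime `ℓ ∤ M`;
* `s58top_caseB` : (B) a good prime `q` with `q ∥ M` does not exist;
* `s58top_caseA` : (A) a prime `q ≠ p` with `q² ∥ M` does not exist.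
-/
import Mathlib
import Fermat.Agent.S58.Top.Compare
import Fermat.Agent.S58.Top.Setup
import Fermat.Agent.S35.SMO.StrongLin
import Fermat.Agent.JT3.ES.FrobExists

set_option autoImplicit false
set_option linter.style.haveILetI false

open Polynomial IsLocalRing
open scoped WeierstrassCurve.Affine TensorProduct

namespace Fermat.Agent.S58

open Fermat.Agent.JT3 CuspForm

theorem s58top_coefval {M : ℕ} [NeZero M] {S : Set ℕ} {O' : Type} [CommRing O']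
    (chig : heckeAlgebra M 2 S →+* ℂ) (iota : chig.range →+* O')
    (T : heckeAlgebra M 2 S) (z : ℤ) (h : chig T = (z : ℂ)) :
    (iota.comp chig.rangeRestrict) T = (z : O') := by
  have h1 : chig.rangeRestrict T = ((z : ℤ) : chig.range) := by
    apply Subtype.ext
    rw [RingHom.coe_rangeRestrict, h]
    simp
  rw [RingHom.comp_apply, h1, map_intCast]

theorem s58top_coefval_inv {M : ℕ} [NeZero M] {S : Set ℕ} {O' : Type} [CommRing O']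
    (chig : heckeAlgebra M 2 S →+* ℂ) (iota : chig.range →+* O')
    (hiota : Function.Injective iota)
    (T : heckeAlgebra M 2 S) (z : ℤ) (h : (iota.comp chig.rangeRestrict) T = (z : O')) :
    chig T = (z : ℂ) := by
  rw [RingHom.comp_apply, ← map_intCast iota] at h
  have h1 := congrArg Subtype.val (hiota h)
  rw [RingHom.coe_rangeRestrict] at h1
  rw [h1]
  simp

/-- existence of a Frobenius element at every prime -/
theorem s58top_exists_frob {ℓ : ℕ} (hℓ : ℓ.Prime) :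
    ∃ (A : ValuationSubring s58_Qb) (σ : s58_G), A.LiesOverPrime ℓ ∧ A.IsFrobeniusAt σ ℓ := by
  obtain ⟨A, hA⟩ := Fermat.Agent.S35.smos_exists_place ℓ hℓ
  obtain ⟨σ, hσ⟩ := fex_exists_isFrobeniusAt hℓ A hA
  exact ⟨A, σ, hA, hσ⟩

section Package

variable {W : WeierstrassCurve ℤ} {N : ℕ} {lam : ℕ} [Fact lam.Prime]
  {ρW : GaloisRepAdic ℤ_[lam]} {π : ℕ → ρW.V →+ s58_E W}
  {M : ℕ} [NeZero M] {g : CuspForm (CongruenceSubgroup.Gamma0 M) 2}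

/-- S35 + [COEF] + [CMP] -/
theorem s58top_s35_package (hF : s58_FrobSeam) (hC : s58_CmpSeam) (hCo : s58_CoefSeam)
    (h35 : s58_S35Stmt) (hN0 : N ≠ 0)
    (hbad : ∀ ℓ : ℕ, ℓ.Prime → (ℓ : ℤ) ∣ W.Δ → ℓ ∣ N)
    (hT : s58top_IsTate W lam ρW π) (hMN : M ∣ N) (hg : g.IsNewform)
    (hgW : ∀ ℓ : ℕ, ℓ.Prime → ¬ ℓ ∣ N → ModularFormClass.qCoeff g ℓ = (W.apOfModel ℓ : ℂ))
    (S : Finset ℕ) (hlamS : lam ∈ S) (hMS : ∀ q : ℕ, q.Prime → q ∣ M → q ∈ S) :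
    ∃ (O : Type) (_ : CommRing O) (_ : IsDomain O) (_ : IsDiscreteValuationRing O)
      (_ : IsAdicComplete (maximalIdeal O) O) (_ : CharZero O)
      (hlam : (lam : O) ∈ maximalIdeal O) (ρ : GaloisRepAdic O),
      (∀ σ : s58_G, aeval ((ρW.baseChangeAlong (cya_padicHom lam O hlam)
          (s58top_padicHom_isLocalHom lam O hlam)).ρ σ) (LinearMap.charpoly (ρ.ρ σ)) = 0) ∧
      (∀ ℓ : ℕ, ℓ.Prime → ¬ ℓ ∣ M → ℓ ∉ S →
        ∀ A : ValuationSubring s58_Qb, A.LiesOverPrime ℓ → ∀ σ : s58_G, A.IsFrobeniusAt σ ℓ →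
          ∃ α : O, LinearMap.charpoly (ρ.ρ σ) = X ^ 2 - C α * X + C (ℓ : O) ∧
            ∀ z : ℤ, α = (z : O) → ModularFormClass.qCoeff g ℓ = (z : ℂ)) ∧
      (∀ q : ℕ, q.Prime → q ≠ lam → q ∣ M → ¬ q ^ 2 ∣ M →
        ∀ A : ValuationSubring s58_Qb, A.LiesOverPrime q → ∀ σ : s58_G, A.IsFrobeniusAt σ q →
          LinearMap.charpoly (ρ.ρ σ) = X ^ 2 - C ((q : O) + 1) * X + C (q : O) ∨
          LinearMap.charpoly (ρ.ρ σ) = X ^ 2 + C ((q : O) + 1) * X + C (q : O)) := by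
  obtain ⟨O', i1, i2, i3, i4, i5, i6, hlamO', chig, hchig, iota, hiota⟩ := hCo hg.1 lam S
  obtain ⟨O, j1, j2, j3, j4, j5, j6, j7, j8, j9, hinj, ρ, hρ1, hρ2⟩ :=
    h35 hg lam S O' hlamO' chig hchig iota hlamS hMS
  have hlam : (lam : O) ∈ maximalIdeal O := s58top_natCast_mem_of_isLocalHom hlamO'
  refine ⟨O, j1, j2, j3, j4, j6, hlam, ρ, ?_, ?_, hρ2⟩
  · refine s58top_cmp hF hC hT O _ _ ρ (S ∪ N.primeFactors) ?_ ?_
    · intro ℓ hℓ hℓS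
      rw [Finset.mem_union, not_or] at hℓS
      refine ⟨fun h => hℓS.1 (h ▸ hlamS), fun h => hℓS.2 ?_⟩
      exact Nat.mem_primeFactors.mpr ⟨hℓ, hbad ℓ hℓ h, hN0⟩
    · intro ℓ hℓ hℓS A hA σ hσ
      rw [Finset.mem_union, not_or] at hℓS
      have hℓN : ¬ ℓ ∣ N := fun h => hℓS.2 (Nat.mem_primeFactors.mpr ⟨hℓ, h, hN0⟩)
      have hℓM : ¬ ℓ ∣ M := fun h => hℓN (h.trans hMN)
      rw [hρ1 ℓ hℓ hℓM hℓS.1 A hA σ hσ,
        s58top_coefval chig iota _ (W.apOfModel ℓ) (by rw [hchig, hgW ℓ hℓ hℓN]), map_intCast]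
  · intro ℓ hℓ hℓM hℓS A hA σ hσ
    refine ⟨_, hρ1 ℓ hℓ hℓM hℓS A hA σ hσ, fun z hz => ?_⟩
    rw [← map_intCast (algebraMap O' O)] at hz
    rw [← hchig ℓ hℓ hℓM hℓS]
    exact s58top_coefval_inv chig iota hiota _ z (hinj hz)

end Package

/-- an odd prime different from a given number -/
theorem s58top_exists_odd_prime (q : ℕ) : ∃ lam : ℕ, lam.Prime ∧ lam ≠ 2 ∧ lam ≠ q := by
  by_cases h : q = 3
  · exact ⟨5, by norm_num, by norm_num, by omega⟩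
  · exact ⟨3, by norm_num, by norm_num, fun h' => h h'.symm⟩

section Cases

variable {W : WeierstrassCurve ℤ} {N : ℕ} {M : ℕ} [NeZero M]
  {g : CuspForm (CongruenceSubgroup.Gamma0 M) 2}

/-- **(C)** -/
theorem s58top_caseC (hF : s58_FrobSeam) (hC : s58_CmpSeam) (hCo : s58_CoefSeam)
    (h35 : s58_S35Stmt) (hTa : s58_TateSeam) (hΔ : W.Δ ≠ 0) (hN0 : N ≠ 0)
    (hbad : ∀ ℓ : ℕ, ℓ.Prime → (ℓ : ℤ) ∣ W.Δ → ℓ ∣ N) (hMN : M ∣ N) (hg : g.IsNewform)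
    (hgW : ∀ ℓ : ℕ, ℓ.Prime → ¬ ℓ ∣ N → ModularFormClass.qCoeff g ℓ = (W.apOfModel ℓ : ℂ))
    {ℓ0 : ℕ} (hℓ0 : ℓ0.Prime) (hgood : ¬ (ℓ0 : ℤ) ∣ W.Δ) (hℓ0M : ¬ ℓ0 ∣ M) :
    ModularFormClass.qCoeff g ℓ0 = (W.apOfModel ℓ0 : ℂ) := by
  obtain ⟨lam, hlam, hlam2, hlamℓ⟩ := s58top_exists_odd_prime ℓ0
  haveI : Fact lam.Prime := ⟨hlam⟩
  obtain ⟨ρW, π, hT⟩ := s58top_exists_tate hTa W hΔ lam hlam2
  have hℓ0S : ℓ0 ∉ insert lam M.primeFactors := by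
    rw [Finset.mem_insert, not_or]
    exact ⟨fun h => hlamℓ h.symm, fun h => hℓ0M (Nat.mem_primeFactors.mp h).2.1⟩
  obtain ⟨O, j1, j2, j3, j4, j5, hlamO, ρ, hcmp, hcl1, -⟩ :=
    s58top_s35_package hF hC hCo h35 hN0 hbad hT hMN hg hgW (insert lam M.primeFactors)
      (Finset.mem_insert_self _ _)
      (fun q hq hqM => Finset.mem_insert_of_mem
        (Nat.mem_primeFactors.mpr ⟨hq, hqM, NeZero.ne M⟩))
  obtain ⟨A, σ, hA, hσ⟩ := s58top_exists_frob hℓ0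
  obtain ⟨α, hχ, hα⟩ := hcl1 ℓ0 hℓ0 hℓ0M hℓ0S A hA σ hσ
  apply hα
  have h1 := hcmp σ
  rw [hχ, s58top_aeval_quadratic] at h1
  have h2 := s58top_frob_rel' hF hT O _ (s58top_padicHom_isLocalHom lam O hlamO) hℓ0 hgood
    (fun h => hlamℓ h.symm) A hA σ hσ
  exact s58top_trace_eq _ σ _ _ _ h1 h2

/-- **(B)** -/
theorem s58top_caseB (hF : s58_FrobSeam) (hC : s58_CmpSeam) (hCo : s58_CoefSeam)
    (h35 : s58_S35Stmt) (hTa : s58_TateSeam) (hΔ : W.Δ ≠ 0) (hN0 : N ≠ 0)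
    (hbad : ∀ ℓ : ℕ, ℓ.Prime → (ℓ : ℤ) ∣ W.Δ → ℓ ∣ N) (hMN : M ∣ N) (hg : g.IsNewform)
    (hgW : ∀ ℓ : ℕ, ℓ.Prime → ¬ ℓ ∣ N → ModularFormClass.qCoeff g ℓ = (W.apOfModel ℓ : ℂ))
    {q : ℕ} (hq : q.Prime) (hgood : ¬ (q : ℤ) ∣ W.Δ) (hqM : q ∣ M) (hq2 : ¬ q ^ 2 ∣ M) :
    False := by
  obtain ⟨lam, hlam, hlam2, hlamq⟩ := s58top_exists_odd_prime q
  haveI : Fact lam.Prime := ⟨hlam⟩
  obtain ⟨ρW, π, hT⟩ := s58top_exists_tate hTa W hΔ lam hlam2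
  obtain ⟨O, j1, j2, j3, j4, j5, hlamO, ρ, hcmp, -, hcl2⟩ :=
    s58top_s35_package hF hC hCo h35 hN0 hbad hT hMN hg hgW (insert lam M.primeFactors)
      (Finset.mem_insert_self _ _)
      (fun q hq hqM => Finset.mem_insert_of_mem
        (Nat.mem_primeFactors.mpr ⟨hq, hqM, NeZero.ne M⟩))
  obtain ⟨A, σ, hA, hσ⟩ := s58top_exists_frob hq
  have h2 := s58top_frob_rel' hF hT O _ (s58top_padicHom_isLocalHom lam O hlamO) hq hgood
    (fun h => hlamq h.symm) A hA σ hσ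
  have h1 := hcmp σ
  obtain ⟨hne1, hne2⟩ := s58top_ap_ne W hq
  rcases hcl2 q hq (fun h => hlamq h.symm) hqM hq2 A hA σ hσ with hχ | hχ
  · rw [hχ, s58top_aeval_quadratic] at h1
    have h3 := s58top_trace_eq _ σ _ _ _ h1 h2
    apply hne1
    have h4 : (((q : ℤ) + 1 : ℤ) : O) = ((W.apOfModel q : ℤ) : O) := by
      push_cast; exact h3
    exact (Int.cast_injective h4).symm
  · have hχ' : LinearMap.charpoly (ρ.ρ σ) = X ^ 2 - C (-((q : O) + 1)) * X + C (q : O) := by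
      rw [hχ, C_neg]; ring
    rw [hχ', s58top_aeval_quadratic] at h1
    have h3 := s58top_trace_eq _ σ _ _ _ h1 h2
    apply hne2
    have h4 : ((-((q : ℤ) + 1) : ℤ) : O) = ((W.apOfModel q : ℤ) : O) := by
      push_cast; exact h3
    exact (Int.cast_injective h4).symm

/-- **(A)** -/
theorem s58top_caseA (hF : s58_FrobSeam) (hX : s58_FixSeam) (hC : s58_CmpSeam) (hZ : s58_ZSeam)
    (hD : s58_DetSeam) (hIA : s58_IrrAbsSeam) (hBN : s58_BN2Seam) (hCo : s58_CoefSeam)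
    (h36 : s58_S36Stmt) (hTa : s58_TateSeam) (hss : W.IsSemistableModel) (hΔ : W.Δ ≠ 0)
    (hN0 : N ≠ 0) {p : ℕ} [Fact p.Prime] (hp2 : p ≠ 2) (hirr : W.ModRepIsIrreducible p)
    (hbad : ∀ ℓ : ℕ, ℓ.Prime → (ℓ : ℤ) ∣ W.Δ → ℓ ∣ N) (hMN : M ∣ N) (hg : g.IsNewform)
    (hgW : ∀ ℓ : ℕ, ℓ.Prime → ¬ ℓ ∣ N → ModularFormClass.qCoeff g ℓ = (W.apOfModel ℓ : ℂ))
    {q : ℕ} (hq : q.Prime) (hqp : q ≠ p) (hqM : M.factorization q = 2) : False := by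
  obtain ⟨ρW, π, hT⟩ := s58top_exists_tate hTa W hΔ p hp2
  set S : Finset ℕ := insert p N.primeFactors with hSdef
  have hS : ∀ ℓ : ℕ, ℓ.Prime → ℓ ∉ S → ℓ ≠ p ∧ ¬ (ℓ : ℤ) ∣ W.Δ := by
    intro ℓ hℓ hℓS
    rw [hSdef, Finset.mem_insert, not_or] at hℓS
    exact ⟨hℓS.1, fun h => hℓS.2 (Nat.mem_primeFactors.mpr ⟨hℓ, hbad ℓ hℓ h, hN0⟩)⟩
  have hSN : ∀ ℓ : ℕ, ℓ.Prime → ℓ ∉ S → ¬ ℓ ∣ N := by
    intro ℓ hℓ hℓS h
    rw [hSdef, Finset.mem_insert, not_or] at hℓS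
    exact hℓS.2 (Nat.mem_primeFactors.mpr ⟨hℓ, h, hN0⟩)
  obtain ⟨O', i1, i2, i3, i4, i5, i6, hpO', chig, hchig, iota, hiota⟩ := hCo hg.1 p S
  -- the translation of the Frobenius clause
  have htrans : ∀ (O : Type) [CommRing O] [IsLocalRing O] [Algebra O' O] (ρ : GaloisRepAdic O),
      (∀ (ℓ : ℕ) (hℓ : ℓ.Prime) (_ : ℓ ≠ p) (hℓM : ¬ ℓ ∣ M) (hℓS : ℓ ∉ (↑S : Set ℕ)),
        ∀ A : ValuationSubring s58_Qb, A.LiesOverPrime ℓ → ∀ σ : s58_G, A.IsFrobeniusAt σ ℓ →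
          LinearMap.charpoly (ρ.ρ σ) =
            X ^ 2 - C (algebraMap O' O ((iota.comp chig.rangeRestrict)
              (heckeAlgebra.T hℓ hℓM hℓS))) * X + C ((ℓ : O))) →
      ∀ ℓ : ℕ, ℓ.Prime → ℓ ∉ S → ∀ A : ValuationSubring s58_Qb, A.LiesOverPrime ℓ →
        ∀ σ : s58_G, A.IsFrobeniusAt σ ℓ →
          LinearMap.charpoly (ρ.ρ σ) = X ^ 2 - C ((W.apOfModel ℓ : ℤ) : O) * X + C (ℓ : O) := by
    intro O _ _ _ ρ hρ ℓ hℓ hℓS A hA σ hσ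
    have hℓN := hSN ℓ hℓ hℓS
    have hℓM : ¬ ℓ ∣ M := fun h => hℓN (h.trans hMN)
    have hℓS' : ℓ ∉ (↑S : Set ℕ) := fun h => hℓS (Finset.mem_coe.mp h)
    rw [hρ ℓ hℓ (hS ℓ hℓ hℓS).1 hℓM hℓS' A hA σ hσ,
      s58top_coefval chig iota _ (W.apOfModel ℓ) (by rw [hchig, hgW ℓ hℓ hℓN]), map_intCast]
  have key := h36 hg p S O' hpO' hp2 chig hchig iota (Finset.mem_insert_self _ _)
    (fun q' hq' hq'M => Finset.mem_insert_of_mem
      (Nat.mem_primeFactors.mpr ⟨hq', hq'M.trans hMN, hN0⟩))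
    (by
      intro O _ _ _ _ _ _ _ _ _ _ ρ hρ
      exact s58top_hres hF hC hZ hD hIA hBN hΔ hp2 hirr hT O
        (s58top_natCast_mem_of_isLocalHom hpO') ρ S hS (htrans O ρ hρ))
  obtain ⟨O, j1, j2, j3, j4, j5, j6, j7, j8, j9, hinj, ρ, hρ1, hρ2⟩ := key
  have hpO : (p : O) ∈ maximalIdeal O := s58top_natCast_mem_of_isLocalHom hpO'
  obtain ⟨hχ, hdet⟩ := s58top_compare hF hC hZ hD hΔ hp2 hirr hT O hpO ρ S hS
    (htrans O ρ (fun ℓ hℓ _ hℓM hℓS => hρ1 ℓ hℓ hℓM hℓS))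
  refine hρ2 q hq hqp hqM fun P hP σ hσ => ?_
  have hinjφ := s58top_padicHom_injective p O hpO
  have h1 : (LinearMap.charpoly (ρW.ρ σ)).eval 1 = 0 :=
    s58top_eval_one hX hT hss hΔ hp2 hq hqp P hP σ hσ
  have h2 : LinearMap.det (ρW.ρ σ) = 1 := by
    apply hinjφ
    rw [map_one, ← cya_eps_inertia p O hpO hq hqp P hP hσ, ← hdet,
      ← s58z_charpoly_coeff_zero ρ.finrank_eq, hχ, coeff_map,
      s58z_charpoly_coeff_zero ρW.finrank_eq]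
  rw [s58z_charpoly_two ρW.finrank_eq, h2] at h1
  simp only [eval_add, eval_sub, eval_pow, eval_X, eval_mul, eval_C, one_pow, mul_one] at h1
  have h3 : LinearMap.trace ℤ_[p] ρW.V (ρW.ρ σ) = 2 := by linear_combination -h1
  rw [hχ, s58z_charpoly_two ρW.finrank_eq, h2, h3]
  simp only [Polynomial.map_add, Polynomial.map_sub, Polynomial.map_pow, Polynomial.map_mul,
    Polynomial.map_X, map_one, map_ofNat, Polynomial.map_ofNat, Polynomial.map_one]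
  ring

end Cases

end Fermat.Agent.S58
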