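/-
S58 project, cell [TOP] (helper21), part 5: THE TOP THEOREM.  Prefix `s58top_`.

`s58top_main` : all the seams of the project imply the statement of S58 (`s58_Main`).
-/
import Mathlib
import Fermat.Agent.S58.Top.Cases

set_option autoImplicit false
set_option linter.style.haveILetI false

namespace Fermat.Agent.S58

open CuspForm

theorem s58top_factorization_eq_two {M q : ℕ} (hM : M ≠ 0) (hq : q.Prime) (h2 : q ^ 2 ∣ M)
    (h3 : ¬ q ^ 3 ∣ M) : M.factorization q = 2 := by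
  have e2 := (hq.pow_dvd_iff_le_factorization hM).mp h2
  have e3 := mt (hq.pow_dvd_iff_le_factorization hM).mpr h3
  omega

/-- a squarefree number divides `n` as soon as its prime factors do -/
theorem s58top_dvd_of_squarefree {M n : ℕ} (hM : Squarefree M)
    (h : ∀ q : ℕ, q.Prime → q ∣ M → q ∣ n) : M ∣ n := by
  rw [← Nat.prod_primeFactors_of_squarefree hM]
  exact Finset.prod_primes_dvd n (fun q hq => (Nat.prime_of_mem_primeFactors hq).prime)
    (fun q hq => h q (Nat.prime_of_mem_primeFactors hq) (Nat.dvd_of_mem_primeFactors hq))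

/-- **The top theorem of the S58 project.** -/
theorem s58top_main (hF : s58_FrobSeam) (hX : s58_FixSeam) (h35 : s58_S35Stmt)
    (h36 : s58_S36Stmt) (hOL : s58_OldLiftSeam) (hC : s58_CmpSeam) (hZ : s58_ZSeam)
    (hD : s58_DetSeam) (hIA : s58_IrrAbsSeam) (hBN : s58_BN2Seam) (hCo : s58_CoefSeam)
    (hTa : s58_TateSeam) : s58_Main := by
  intro W hss N p _ hp2 hirr hp2N hN hbad hN3
  obtain ⟨hΔ, hN0⟩ := s58top_ne_zero W N hbad hN3
  obtain ⟨f, hf, hfW⟩ := hN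
  obtain ⟨M, hMN, g, hg, hgf⟩ := s58top_minLevel hN0 f hf
  have hM0 : M ≠ 0 := fun h => hN0 (by rw [h] at hMN; exact zero_dvd_iff.mp hMN)
  haveI : NeZero M := ⟨hM0⟩
  have hgW : ∀ ℓ : ℕ, ℓ.Prime → ¬ ℓ ∣ N →
      ModularFormClass.qCoeff g ℓ = (W.apOfModel ℓ : ℂ) := fun ℓ hℓ hℓN => by
    rw [hgf ℓ hℓ hℓN]
    exact hfW ℓ hℓ (fun h => hℓN (hbad ℓ hℓ h)) hℓN
  -- (A): no prime `q` with `q ^ 2 ∣ M`
  have hA : ∀ q : ℕ, q.Prime → ¬ q ^ 2 ∣ M := by
    intro q hq hq2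
    have hqp : q ≠ p := fun h => hp2N (h ▸ hq2.trans hMN)
    have hfac : M.factorization q = 2 :=
      s58top_factorization_eq_two hM0 hq hq2 (fun h => hN3 q hq (h.trans hMN))
    exact s58top_caseA hF hX hC hZ hD hIA hBN hCo h36 hTa hss hΔ hN0 hp2 hirr hbad hMN hg hgW
      hq hqp hfac
  -- (B): every prime of `M` is bad
  have hB : ∀ q : ℕ, q.Prime → q ∣ M → (q : ℤ) ∣ W.Δ := by
    intro q hq hqM
    by_contra hgood
    exact s58top_caseB hF hC hCo h35 hTa hΔ hN0 hbad hMN hg hgW hq hgood hqM (hA q hq)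
  have hMsq : Squarefree M := by
    rw [Nat.squarefree_iff_prime_squarefree]
    intro q hq hqq
    exact hA q hq (by rwa [pow_two])
  have hMC : M ∣ W.conductorLevel :=
    s58top_dvd_of_squarefree hMsq fun q hq hqM =>
      (W.prime_dvd_conductorLevel_iff hΔ hq).mpr (hB q hq hqM)
  obtain ⟨R, hR⟩ := hMC
  have hsq : Squarefree (M * R) := hR ▸ W.squarefree_conductorLevel
  obtain ⟨hcop, -, hRsq⟩ := Nat.squarefree_mul_iff.mp hsq
  obtain ⟨g', hg', hg'g⟩ := hOL M R hRsq hcop g hg.1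
  rw [hR]
  refine ⟨g', hg', fun ℓ hℓ hgood hℓC => ?_⟩
  have hℓR : ℓ.Coprime R := (Nat.Prime.coprime_iff_not_dvd hℓ).mpr fun h => hℓC (h.mul_left M)
  have hℓM : ¬ ℓ ∣ M := fun h => hℓC (h.mul_right R)
  rw [hg'g ℓ hℓR]
  by_cases hℓN : ℓ ∣ N
  · exact s58top_caseC hF hC hCo h35 hTa hΔ hN0 hbad hMN hg hgW hℓ hgood hℓM
  · exact hgW ℓ hℓ hℓN

end Fermat.Agent.S58
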