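/-
S58 project, cell [TOP] (helper21), part 6: plugging the closed seams into the top theorem.
Prefix `s58top_`.

`s58top_final` : the statement of S58 from the statement of S36 (the only seam which is not a
closed term yet); every other seam is plugged in here:
(S-FROB) helper7 + helper18, (S-FIX) helper19, S35 (`Fermat.Agent.S35.result`), [OLD-LIFT] helper18,
[CMP] [Z] [IRR-ABS] helper20, [CMP-DET] helper4, [BN2] helper19, [COEF] helper9, [TATE] helper21.
-/
import Mathlib
import Fermat.Agent.S58.Top.Main
import Fermat.Agent.S58.Frob.Seam
import Fermat.Agent.S58.Mult.Fix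
import Fermat.Agent.S58.OldLiftSeam
import Fermat.Agent.S58.SeamsModA
import Fermat.Agent.S58.CmpDet
import Fermat.Agent.S58.IrrAbs
import Fermat.Agent.S58.BN2
import Fermat.Agent.S58.Coef
import Fermat.Agent.S58.Tate
import Fermat.Agent.S35

set_option autoImplicit false

namespace Fermat.Agent.S58

/-- the statement of S35 as a closed term -/
theorem s58top_s35 : s58_S35Stmt := @Fermat.Agent.S35.result

/-- **S58 from S36** -/
theorem s58top_final (h36 : s58_S36Stmt) : s58_Main :=
  s58top_main s58fa_frobSeam s58m_fixSeam s58top_s35 h36 s58o_oldLiftSeam s58cm_seam s58z_seam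
    s58cd_detSeam s58ia_seam s58bn_seam s58co_coef s58t_tateSeam

end Fermat.Agent.S58
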